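import Mathlib
import Fermat.Agent.MUL.E.Desc.Comm.Levels
import Fermat.Agent.MUL.Lib.Kronecker.NormProd
import Fermat.Agent.MUL.Orig.S36.G.Types

section MergeWrap_E_Desc_Comm_Degree -- from E/Desc/Comm/Degree.lean

set_option autoImplicit false
set_option linter.unusedSectionVars false
set_option linter.unusedVariables false
set_option linter.style.haveILetI false

noncomputable section

open AlgebraicCurve ModularCurve Fermat.Agent.S24 Fermat.Agent.S24.EmbFHom
open scoped MatrixGroups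

namespace Fermat.Agent.EDescComm

local notation "Qb" => AlgebraicClosure ℚ

/-! ### arithmetic of `ψ` -/

theorem dedekindPsi_pos_of_pos {N : ℕ} (hN : 0 < N) : 0 < dedekindPsi N := by
  haveI : NeZero N := ⟨hN.ne'⟩
  rw [← index_Gamma0 N]
  exact Nat.pos_of_ne_zero Subgroup.FiniteIndex.index_ne_zero

theorem dedekindPsi_pow_mul_pow_mul {r s : ℕ} (hr : r.Prime) (hs : s.Prime) (hrs : r ≠ s)
    {N₂ : ℕ} (hrN : ¬ r ∣ N₂) (hsN : ¬ s ∣ N₂) (x y : ℕ) :
    dedekindPsi (r ^ x * (s ^ y * N₂)) =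
      dedekindPsi (r ^ x) * (dedekindPsi (s ^ y) * dedekindPsi N₂) := by
  have h1 : (s ^ y).Coprime N₂ :=
    Nat.Coprime.pow_left y ((Nat.Prime.coprime_iff_not_dvd hs).mpr hsN)
  have h2 : (r ^ x).Coprime (s ^ y * N₂) := by
    apply Nat.Coprime.pow_left x
    apply Nat.Coprime.mul_right
    · exact Nat.Coprime.pow_right y ((Nat.coprime_primes hr hs).mpr hrs)
    · exact (Nat.Prime.coprime_iff_not_dvd hr).mpr hrN
  rw [Fermat.Agent.S20.dedekindPsi_mul h2, Fermat.Agent.S20.dedekindPsi_mul h1]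

/-- `ψ(N r s) ψ(N) = ψ(N r) ψ(N s)` for distinct primes `r`, `s`. -/
theorem dedekindPsi_mul_mul_mul {r s : ℕ} (hr : r.Prime) (hs : s.Prime) (hrs : r ≠ s)
    {N : ℕ} (hN : 0 < N) :
    dedekindPsi (N * r * s) * dedekindPsi N = dedekindPsi (N * r) * dedekindPsi (N * s) := by
  obtain ⟨a, N₁, hrN₁, rfl⟩ := Nat.exists_eq_pow_mul_and_not_dvd hN.ne' r hr.ne_one
  have hN₁ : N₁ ≠ 0 := by
    rintro rfl
    simp at hN
  obtain ⟨b, N₂, hsN₂, rfl⟩ := Nat.exists_eq_pow_mul_and_not_dvd hN₁ s hs.ne_one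
  have hrN₂ : ¬ r ∣ N₂ := fun h => hrN₁ (Dvd.dvd.mul_left h _)
  have e1 : r ^ a * (s ^ b * N₂) * r * s = r ^ (a + 1) * (s ^ (b + 1) * N₂) := by ring
  have e2 : r ^ a * (s ^ b * N₂) * r = r ^ (a + 1) * (s ^ b * N₂) := by ring
  have e3 : r ^ a * (s ^ b * N₂) * s = r ^ a * (s ^ (b + 1) * N₂) := by ring
  rw [e1, e2, e3, dedekindPsi_pow_mul_pow_mul hr hs hrs hrN₂ hsN₂,
    dedekindPsi_pow_mul_pow_mul hr hs hrs hrN₂ hsN₂,
    dedekindPsi_pow_mul_pow_mul hr hs hrs hrN₂ hsN₂,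
    dedekindPsi_pow_mul_pow_mul hr hs hrs hrN₂ hsN₂]
  ring

/-! ### degrees -/

section Degree

variable {A B : ℕ} [NeZero A] [NeZero B]

/-- `φ' ∘ α = φ` for an inclusion-type map `α`. -/
theorem embHom_of_coe_eq (hAB : A ∣ B)
    (α : ↥(modularFunctionFieldBar A) →ₐ[Qb] ↥(modularFunctionFieldBar B))
    (hα : ∀ x, ((α x : ↥(modularFunctionFieldBar B)) : LaurentSeries Qb) = x)
    (x : ↥(modularFunctionFieldBar A)) :
    embHom B B dvd_rfl (α x) = embHom A B hAB x := by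
  apply expLL_injective B
  rw [expLL_embHom, expLL_embHom, hα]

/-- **Degree** of an inclusion-type map: `[F_B : F_A] ψ(A) = ψ(B)`. -/
theorem finrankAlong_mul_dedekindPsi (hAB : A ∣ B)
    (α : ↥(modularFunctionFieldBar A) →ₐ[Qb] ↥(modularFunctionFieldBar B))
    (hα : ∀ x, ((α x : ↥(modularFunctionFieldBar B)) : LaurentSeries Qb) = x) :
    finrankAlong Qb α * dedekindPsi A = dedekindPsi B := by
  have hj : embHom A B hAB (jBar A) = jLL B := embHom_jq A B hAB (jBar A) rfl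
  obtain ⟨-, hrank⟩ := Fermat.Agent.Kronecker.finrank_hom_mul_index_eq_index (Γ := SL(2, ℤ))
    (embHom A B hAB) (embHom B B dvd_rfl) α (embHom_of_coe_eq hAB α hα)
    (jBar A) (exists_finiteIndex_fixing B)
    (fun g => by rw [hj]; exact smul_jLL B g)
    (fun x hx => by
      rw [hj]; exact Fermat.Agent.S24Inv.mem_adjoin_jLL_of_invariant' B x hx)
    (CongruenceSubgroup.Gamma0 A) (CongruenceSubgroup.Gamma0 B)
    (Fermat.Agent.Kronecker.mem_Gamma0_iff_smul_embHom A B hAB)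
    (Fermat.Agent.Kronecker.mem_Gamma0_iff_smul_embHom B B dvd_rfl)
  rw [index_Gamma0 A, index_Gamma0 B] at hrank
  exact hrank

end Degree

/-- the degree of `F_{N r} ⊆ F_{N r s}` is the degree of `F_N ⊆ F_{N s}`. -/
theorem finrankAlong_inclF_eq {N r s : ℕ} [NeZero N] [NeZero r] [NeZero s]
    (hr : r.Prime) (hs : s.Prime) (hrs : r ≠ s)
    {Nr Ns Nrs : ℕ} [NeZero Nr] [NeZero Ns] [NeZero Nrs]
    (hNr : N * r = Nr) (hNs : N * s = Ns) (hNrs : Nr * s = Nrs) :
    finrankAlong Qb (inclF s hNrs : ↥(modularFunctionFieldBar Nr) →ₐ[Qb] _) =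
      finrankAlong Qb (inclF s hNs : ↥(modularFunctionFieldBar N) →ₐ[Qb] _) := by
  have h1 := finrankAlong_mul_dedekindPsi (A := Nr) (B := Nrs) ⟨s, hNrs.symm⟩ (inclF s hNrs)
    (coe_inclF s hNrs)
  have h2 := finrankAlong_mul_dedekindPsi (A := N) (B := Ns) ⟨s, hNs.symm⟩ (inclF s hNs)
    (coe_inclF s hNs)
  have hN : 0 < N := Nat.pos_of_ne_zero (NeZero.ne N)
  have h3 := dedekindPsi_mul_mul_mul hr hs hrs hN
  subst hNr hNs hNrs
  have hpos1 : 0 < dedekindPsi (N * r) :=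
    dedekindPsi_pos_of_pos (Nat.mul_pos hN hr.pos)
  have hpos2 : 0 < dedekindPsi N := dedekindPsi_pos_of_pos hN
  have key : finrankAlong Qb (inclF s rfl : ↥(modularFunctionFieldBar (N * r)) →ₐ[Qb]
        ↥(modularFunctionFieldBar (N * r * s))) * (dedekindPsi (N * r) * dedekindPsi N)
      = finrankAlong Qb (inclF s rfl : ↥(modularFunctionFieldBar N) →ₐ[Qb]
        ↥(modularFunctionFieldBar (N * s))) * (dedekindPsi (N * r) * dedekindPsi N) := by
    calc _ = (finrankAlong Qb (inclF s rfl : ↥(modularFunctionFieldBar (N * r)) →ₐ[Qb]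
        ↥(modularFunctionFieldBar (N * r * s))) * dedekindPsi (N * r)) * dedekindPsi N := by ring
      _ = dedekindPsi (N * r * s) * dedekindPsi N := by rw [h1]
      _ = dedekindPsi (N * r) * dedekindPsi (N * s) := h3
      _ = dedekindPsi (N * r) * (finrankAlong Qb (inclF s rfl :
        ↥(modularFunctionFieldBar N) →ₐ[Qb] ↥(modularFunctionFieldBar (N * s))) *
          dedekindPsi N) := by rw [h2]
      _ = _ := by ring
  exact Nat.eq_of_mul_eq_mul_right (Nat.mul_pos hpos1 hpos2) key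

end Fermat.Agent.EDescComm
end
end MergeWrap_E_Desc_Comm_Degree
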